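import Mathlib
import Fermat.Prelude.Def_FLTPrelim_Modularity
import Fermat.Prelude.Thm_ModularForm_sturm_bound_of_isArithmetic

/-!
# Program DS, package (R), rows R-0 and R-4: Sturm bound, finite dimensionality and the coefficient
map of `CuspForm (Gamma1 N) k`; odd weight forms vanish for `N ≤ 2`.
-/

set_option autoImplicit false

noncomputable section

namespace Fermat.Agent.DS

open CongruenceSubgroup UpperHalfPlane ModularFormClass
open scoped MatrixGroups ModularForm Manifold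

theorem dsr_one_mem_strictPeriods (N : ℕ) :
    (1 : ℝ) ∈ ((Gamma1 N : Subgroup SL(2, ℤ)) : Subgroup (GL (Fin 2) ℝ)).strictPeriods := by
  have hT : ModularGroup.T ∈ Gamma1 N := by
    rw [Gamma1_mem]
    simp [ModularGroup.T]
  have h := Subgroup.strictPeriods_eq_zmultiples_one_of_T_mem hT
  rw [h]
  exact AddSubgroup.mem_zmultiples (1 : ℝ)

theorem dsr_gamma1_le_SL (N : ℕ) :
    ((Gamma1 N : Subgroup SL(2, ℤ)) : Subgroup (GL (Fin 2) ℝ)) ≤ 𝒮ℒ := by
  rintro _ ⟨γ, -, rfl⟩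
  exact ⟨γ, rfl⟩

theorem dsr_qExp_add (N : ℕ) [NeZero N] {k : ℤ} (f g : CuspForm (Gamma1 N) k) :
    qExpansion 1 ⇑(f + g) = qExpansion 1 ⇑f + qExpansion 1 ⇑g := by
  rw [FunLike.coe_add]
  exact ModularForm.qExpansion_add one_pos (dsr_one_mem_strictPeriods N) f g

theorem dsr_qExp_smul (N : ℕ) [NeZero N] {k : ℤ} (c : ℂ) (f : CuspForm (Gamma1 N) k) :
    qExpansion 1 ⇑(c • f) = c • qExpansion 1 ⇑f := by
  have h1 : ⇑(c • f) = c • ⇑f := by
    ext z
    simp
  rw [h1]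
  exact ModularForm.qExpansion_smul one_pos (dsr_one_mem_strictPeriods N) c f

theorem dsr_qCoeff_add (N : ℕ) [NeZero N] {k : ℤ} (f g : CuspForm (Gamma1 N) k) (n : ℕ) :
    qCoeff (⇑(f + g)) n = qCoeff f n + qCoeff g n := by
  unfold qCoeff
  rw [dsr_qExp_add, map_add]

theorem dsr_qCoeff_smul (N : ℕ) [NeZero N] {k : ℤ} (c : ℂ) (f : CuspForm (Gamma1 N) k) (n : ℕ) :
    qCoeff (⇑(c • f)) n = c * qCoeff f n := by
  unfold qCoeff
  rw [dsr_qExp_smul]
  simp

/-- the Sturm bound of `Γ₁(N)` in weight `k`. -/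
def dsrBound (N : ℕ) (k : ℤ) : ℕ :=
  (k * (((Gamma1 N : Subgroup SL(2, ℤ)) : Subgroup (GL (Fin 2) ℝ)).relIndex 𝒮ℒ)).toNat / 12

/-- A cusp form on `Γ₁(N)` all of whose low `q`-coefficients vanish is zero. -/
theorem dsr_eq_zero_of_coeff (N : ℕ) [NeZero N] {k : ℤ} (f : CuspForm (Gamma1 N) k)
    (h : ∀ n : ℕ, n ≤ dsrBound N k → qCoeff f n = 0) : f = 0 := by
  have hmf : (ModularFormClass.modularForm f : ModularForm (Gamma1 N) k) = 0 := by
    refine ModularForm.sturm_bound_of_isArithmetic (dsr_one_mem_strictPeriods N) ?_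
    by_contra hlt
    rw [not_lt] at hlt
    set φ := qExpansion 1 (ModularFormClass.modularForm f : ModularForm (Gamma1 N) k) with hφ
    have hfin : φ.order ≠ ⊤ := fun htop => by
      rw [htop] at hlt
      exact absurd hlt (by simp)
    have hne : φ ≠ 0 := fun h0 => hfin (by rw [h0]; exact PowerSeries.order_zero)
    have hcoeff := PowerSeries.coeff_order hne
    have hle : φ.order.toNat ≤ dsrBound N k := by
      have h1 : (φ.order.toNat : ℕ∞) = φ.order := ENat.natCast_toNat hfin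
      have h2 : (φ.order.toNat : ℕ∞) ≤ ((dsrBound N k : ℕ) : ℕ∞) := by
        rw [h1]; exact hlt
      exact_mod_cast h2
    apply hcoeff
    have := h _ hle
    simpa [qCoeff, hφ] using this
  have hcoe : (⇑f : ℍ → ℂ) = 0 := by
    have := congrArg (fun F : ModularForm (Gamma1 N) k ↦ (⇑F : ℍ → ℂ)) hmf
    simpa using this
  exact DFunLike.coe_injective (hcoe.trans FunLike.coe_zero.symm)

/-- **R-4**. -/
theorem dsr_sturm (N : ℕ) [NeZero N] (k : ℤ) :
    ∃ B : ℕ, ∀ f : CuspForm (Gamma1 N) k, (∀ n ≤ B, qCoeff f n = 0) → f = 0 :=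
  ⟨dsrBound N k, fun f h => dsr_eq_zero_of_coeff N f h⟩

/-- the coefficient map, `ℂ`-linear and injective -/
def dsrCoeffLin (N : ℕ) [NeZero N] (k : ℤ) : CuspForm (Gamma1 N) k →ₗ[ℂ] (ℕ → ℂ) where
  toFun f n := qCoeff f n
  map_add' f g := by
    funext n
    exact dsr_qCoeff_add N f g n
  map_smul' c f := by
    funext n
    have := dsr_qCoeff_smul N c f n
    simpa using this

theorem dsrCoeffLin_apply (N : ℕ) [NeZero N] (k : ℤ) (f : CuspForm (Gamma1 N) k) (n : ℕ) :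
    dsrCoeffLin N k f n = qCoeff f n := rfl

theorem dsrCoeffLin_injective (N : ℕ) [NeZero N] (k : ℤ) :
    Function.Injective (dsrCoeffLin N k) := by
  refine (injective_iff_map_eq_zero _).mpr fun f hf ↦ ?_
  refine dsr_eq_zero_of_coeff N f fun n _ ↦ ?_
  have := congrFun hf n
  simpa [dsrCoeffLin_apply] using this

/-- truncated coefficient map -/
def dsrTruncLin (N : ℕ) [NeZero N] (k : ℤ) :
    CuspForm (Gamma1 N) k →ₗ[ℂ] (Fin (dsrBound N k + 1) → ℂ) :=
  (LinearMap.funLeft ℂ ℂ (fun i : Fin (dsrBound N k + 1) ↦ (i : ℕ))).comp (dsrCoeffLin N k)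

theorem dsrTruncLin_apply (N : ℕ) [NeZero N] (k : ℤ) (f : CuspForm (Gamma1 N) k)
    (i : Fin (dsrBound N k + 1)) : dsrTruncLin N k f i = qCoeff f i := rfl

theorem dsrTruncLin_injective (N : ℕ) [NeZero N] (k : ℤ) :
    Function.Injective (dsrTruncLin N k) := by
  refine (injective_iff_map_eq_zero _).mpr fun f hf ↦ ?_
  refine dsr_eq_zero_of_coeff N f fun n hn ↦ ?_
  have := congrFun hf ⟨n, Nat.lt_succ_of_le hn⟩
  simpa [dsrTruncLin_apply] using this

theorem ds_finiteDimensional (N : ℕ) [NeZero N] (k : ℤ) :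
    FiniteDimensional ℂ (CuspForm (Gamma1 N) k) :=
  FiniteDimensional.of_injective (dsrTruncLin N k) (dsrTruncLin_injective N k)

/-- `-1 ∈ Γ₁(N)` for `N ≤ 2`. -/
theorem dsr_neg_one_mem (N : ℕ) [NeZero N] (hN : N ≤ 2) :
    (-1 : GL (Fin 2) ℝ) ∈ ((Gamma1 N : Subgroup SL(2, ℤ)) : Subgroup (GL (Fin 2) ℝ)) := by
  refine ⟨-1, ?_, ?_⟩
  · rw [SetLike.mem_coe, Gamma1_mem]
    have h2 : ((-1 : ℤ) : ZMod N) = 1 := by
      have hN0 : N ≠ 0 := NeZero.ne N
      interval_cases N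
      · exact absurd rfl hN0
      · exact Subsingleton.elim _ _
      · decide
    simp [h2]
  · ext i j
    simp

/-- **R-0**.  For `N ≤ 2` odd weight cusp forms on `Γ₁(N)` vanish. -/
theorem dsr_eq_zero_of_le_two (N : ℕ) [NeZero N] (hN : N ≤ 2) (k : ℤ) (hk : Odd k)
    (f : CuspForm (Gamma1 N) k) : f = 0 := by
  have hmf : (ModularFormClass.modularForm f : ModularForm (Gamma1 N) k) = 0 :=
    ModularForm.eq_zero_of_neg_one_mem (dsr_neg_one_mem N hN) hk _
  have hcoe : (⇑f : ℍ → ℂ) = 0 := by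
    have := congrArg (fun F : ModularForm (Gamma1 N) k ↦ (⇑F : ℍ → ℂ)) hmf
    simpa using this
  exact DFunLike.coe_injective (hcoe.trans FunLike.coe_zero.symm)

end Fermat.Agent.DS
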