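import Mathlib
import Fermat.Prelude.Def_FLTPrelim_Modularity
import Fermat.Agent.S23.Nice
import Fermat.Agent.DS.Wt1.Forms
import Fermat.Agent.DS.Wt1.Arith
import Fermat.Agent.DS.R.Sturm

/-!
# Program DS, package (R), row R-1: the rational weight one Eisenstein series `R_b`

`R_b = (2πiN)⁻¹ ∑_{a mod N} e(ab/N) E_a`, `E_a` = helper22's torsion point series `dsw_E N a`.
-/

set_option autoImplicit false

noncomputable section

namespace Fermat.Agent.DS

open CongruenceSubgroup UpperHalfPlane ModularFormClass Fermat.Agent.S23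
open scoped MatrixGroups ModularForm Real

/-- `E_a` depends only on `a mod N`. -/
theorem dsre_E_congr (N : ℕ) [NeZero N] (a a' : ℤ) (h : (a : ZMod N) = (a' : ZMod N)) :
    dsw_E N a = dsw_E N a' := by
  have hN : (N : ℝ) ≠ 0 := by exact_mod_cast NeZero.ne N
  obtain ⟨c, hc⟩ : (N : ℤ) ∣ a' - a := by
    have := (ZMod.intCast_eq_intCast_iff_dvd_sub a a' N).mp h
    exact this
  apply DFunLike.coe_injective
  rw [dsw_E_coe, dsw_E_coe]
  have h1 : ((a' : ℤ) : ℝ) / N = (a : ℝ) / N + (c : ℤ) := by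
    have : (a' : ℝ) = a + N * c := by
      have := congrArg (fun z : ℤ => (z : ℝ)) hc
      push_cast at this
      linarith
    rw [this]
    field_simp
  rw [h1]
  have := dsw_F_add_int 0 ((a : ℝ) / N) 0 c
  simpa using this.symm

/-- `E_a`, `a : ZMod N`. -/
def dsrE (N : ℕ) [NeZero N] (a : ZMod N) : ModularForm (Gamma1 N) 1 := dsw_E N (a.val : ℤ)

theorem dsrE_intCast (N : ℕ) [NeZero N] (a : ℤ) : dsrE N (a : ZMod N) = dsw_E N a := by
  unfold dsrE
  apply dsre_E_congr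
  simp

theorem dsrE_slash (N : ℕ) [NeZero N] (a : ZMod N) (γ : SL(2, ℤ)) (hγ : γ ∈ Gamma0 N) :
    (dsrE N a : ℍ → ℂ) ∣[(1 : ℤ)] γ = dsrE N (a * ((γ 1 1 : ℤ) : ZMod N)) := by
  unfold dsrE
  rw [dsw_E_slash_Gamma0 N _ γ hγ]
  congr 1
  apply dsre_E_congr
  simp

/-- The weight one Eisenstein series `R_b = (2πiN)⁻¹ ∑_{a mod N} e(ab/N) E_a`. -/
def dsrR (N : ℕ) [NeZero N] (b : ZMod N) : ModularForm (Gamma1 N) 1 :=
  (2 * π * Complex.I * N)⁻¹ • ∑ a : ZMod N, ZMod.stdAddChar (a * b) • dsrE N a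

theorem dsre_coe_sum {N : ℕ} {k : ℤ} {ι : Type*} (s : Finset ι)
    (F : ι → ModularForm (Gamma1 N) k) : ⇑(∑ i ∈ s, F i) = ∑ i ∈ s, (F i : ℍ → ℂ) :=
  map_sum (FunLike.coeAddMonoidHom (ModularForm (Gamma1 N) k) ℍ ℂ) F s

theorem dsrR_coe (N : ℕ) [NeZero N] (b : ZMod N) :
    (dsrR N b : ℍ → ℂ) =
      (2 * π * Complex.I * N)⁻¹ • ∑ a : ZMod N, ZMod.stdAddChar (a * b) • (dsrE N a : ℍ → ℂ) := by
  unfold dsrR
  rw [FunLike.coe_smul, dsre_coe_sum]
  congr 1

/-- for `γ ∈ Γ₀(N)` the diagonal entries are inverse to each other mod `N`. -/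
theorem dsre_diag_mul (N : ℕ) (γ : SL(2, ℤ)) (hγ : γ ∈ Gamma0 N) :
    ((γ 0 0 : ℤ) : ZMod N) * ((γ 1 1 : ℤ) : ZMod N) = 1 := by
  have hdet : γ 0 0 * γ 1 1 - γ 0 1 * γ 1 0 = 1 := by
    have := γ.det_coe
    rw [Matrix.det_fin_two] at this
    exact this
  have hc : ((γ 1 0 : ℤ) : ZMod N) = 0 := Gamma0_mem.mp hγ
  have := congrArg (fun z : ℤ => (z : ZMod N)) hdet
  simp only [Int.cast_sub, Int.cast_mul, Int.cast_one, hc, mul_zero, sub_zero] at this
  exact this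

/-- **R-1a**.  `Γ₀(N)` permutes the `R_b`. -/
theorem dsrR_slash (N : ℕ) [NeZero N] (b : ZMod N) (γ : SL(2, ℤ)) (hγ : γ ∈ Gamma0 N) :
    (dsrR N b : ℍ → ℂ) ∣[(1 : ℤ)] γ = dsrR N (b * ((γ 0 0 : ℤ) : ZMod N)) := by
  rw [dsrR_coe, dsrR_coe, ModularForm.SL_smul_slash, SlashAction.sum_slash]
  congr 1
  have hinv := dsre_diag_mul N γ hγ
  let u : (ZMod N)ˣ := ⟨((γ 1 1 : ℤ) : ZMod N), ((γ 0 0 : ℤ) : ZMod N), by rw [mul_comm]; exact hinv,
    hinv⟩
  refine Fintype.sum_equiv (Units.mulRight u) _ _ fun a => ?_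
  rw [ModularForm.SL_smul_slash, dsrE_slash N a γ hγ]
  have h1 : (Units.mulRight u) a = a * ((γ 1 1 : ℤ) : ZMod N) := rfl
  rw [h1]
  congr 2
  rw [mul_assoc, mul_comm b, ← mul_assoc (((γ 1 1 : ℤ) : ZMod N)), mul_comm (((γ 1 1 : ℤ) : ZMod N)),
    hinv, one_mul]

/-- the coefficient map on modular forms, `ℂ`-linear. -/
def dsreCoeffLin (N : ℕ) [NeZero N] (k : ℤ) : ModularForm (Gamma1 N) k →ₗ[ℂ] (ℕ → ℂ) where
  toFun f n := qCoeff f n
  map_add' f g := by
    funext n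
    show qCoeff (⇑(f + g)) n = qCoeff f n + qCoeff g n
    unfold qCoeff
    rw [FunLike.coe_add, ModularForm.qExpansion_add one_pos (dsr_one_mem_strictPeriods N) f g,
      map_add]
  map_smul' c f := by
    funext n
    show qCoeff (⇑(c • f)) n = c • qCoeff f n
    unfold qCoeff
    have h1 : ⇑(c • f) = c • ⇑f := by
      ext z
      simp
    rw [h1, ModularForm.qExpansion_smul one_pos (dsr_one_mem_strictPeriods N) c f]
    simp

theorem dsreCoeffLin_apply (N : ℕ) [NeZero N] (k : ℤ) (f : ModularForm (Gamma1 N) k) (n : ℕ) :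
    dsreCoeffLin N k f n = qCoeff f n := rfl

/-- `ζ_N ^ a` is the standard additive character. -/
theorem dsre_zeta_zpow (N : ℕ) [NeZero N] (a : ZMod N) :
    dsw_zeta N ^ ((a.val : ℕ) : ℤ) = ZMod.stdAddChar a := by
  have h1 : ZMod.stdAddChar a = ZMod.stdAddChar (((a.val : ℕ) : ℤ) : ZMod N) := by
    congr 1
    simp
  rw [h1, ZMod.stdAddChar_coe]
  unfold dsw_zeta
  rw [← Complex.exp_int_mul]
  congr 1
  push_cast
  ring

/-- coefficients of `E_a`, `a : ZMod N`. -/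
theorem dsrE_qCoeff (N : ℕ) [NeZero N] (a : ZMod N) (n : ℕ) (hn : n ≠ 0) :
    qCoeff (dsrE N a) n = 2 * π * Complex.I *
      ∑ d ∈ n.divisors, (ZMod.stdAddChar (-(a * (d : ZMod N))) - ZMod.stdAddChar (a * (d : ZMod N))) := by
  unfold dsrE
  rw [dsw_E_qCoeff N _ n hn, dsre_zeta_zpow]
  unfold dsw_sig
  congr 1
  refine Finset.sum_congr rfl fun d _ => ?_
  rw [← AddChar.map_neg_eq_inv, ← AddChar.map_nsmul_eq_pow, ← AddChar.map_nsmul_eq_pow]
  congr 2
  · rw [nsmul_eq_mul, mul_neg, mul_comm]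
  · rw [nsmul_eq_mul, mul_comm]

theorem dsrR_qCoeff_eq (N : ℕ) [NeZero N] (b : ZMod N) (n : ℕ) :
    qCoeff (dsrR N b) n = (2 * π * Complex.I * N)⁻¹ *
      ∑ a : ZMod N, ZMod.stdAddChar (a * b) * qCoeff (dsrE N a) n := by
  have h := congrFun (show dsreCoeffLin N 1 (dsrR N b) = _ from by
    unfold dsrR
    rw [map_smul, map_sum]) n
  rw [dsreCoeffLin_apply] at h
  rw [h]
  simp only [Pi.smul_apply, Finset.sum_apply, map_smul, smul_eq_mul, dsreCoeffLin_apply]

/-- **R-1b**.  Higher coefficients of `R_b`. -/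
theorem dsrR_qCoeff (N : ℕ) [NeZero N] (b : ZMod N) (n : ℕ) (hn : n ≠ 0) :
    qCoeff (dsrR N b) n =
      ∑ d ∈ n.divisors, (((if (d : ZMod N) = b then 1 else 0) -
        (if (d : ZMod N) = -b then 1 else 0) : ℤ) : ℂ) := by
  classical
  have hN : (N : ℂ) ≠ 0 := by exact_mod_cast NeZero.ne N
  have hpi : (2 * π * Complex.I : ℂ) ≠ 0 := by
    simp [Real.pi_ne_zero, Complex.I_ne_zero]
  rw [dsrR_qCoeff_eq]
  simp_rw [dsrE_qCoeff N _ n hn]
  have key : ∀ d : ℕ, ∑ a : ZMod N, ZMod.stdAddChar (a * b) *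
      (ZMod.stdAddChar (-(a * (d : ZMod N))) - ZMod.stdAddChar (a * (d : ZMod N))) =
      (N : ℂ) * (((if (d : ZMod N) = b then 1 else 0) -
        (if (d : ZMod N) = -b then 1 else 0) : ℤ) : ℂ) := by
    intro d
    have h1 : ∀ a : ZMod N, ZMod.stdAddChar (a * b) *
        (ZMod.stdAddChar (-(a * (d : ZMod N))) - ZMod.stdAddChar (a * (d : ZMod N))) =
        ZMod.stdAddChar (a * (b - (d : ZMod N))) - ZMod.stdAddChar (a * (b + (d : ZMod N))) := by
      intro a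
      rw [mul_sub, ← AddChar.map_add_eq_mul, ← AddChar.map_add_eq_mul]
      congr 2 <;> ring
    simp_rw [h1]
    rw [Finset.sum_sub_distrib, AddChar.sum_mulShift _ (ZMod.isPrimitive_stdAddChar N),
      AddChar.sum_mulShift _ (ZMod.isPrimitive_stdAddChar N), ZMod.card]
    have e1 : (b - (d : ZMod N) = 0) ↔ ((d : ZMod N) = b) := by
      rw [sub_eq_zero]; exact eq_comm
    have e2 : (b + (d : ZMod N) = 0) ↔ ((d : ZMod N) = -b) := by
      rw [add_comm, add_eq_zero_iff_eq_neg]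
    simp only [e1, e2]
    split_ifs <;> simp
  calc (2 * π * Complex.I * N)⁻¹ * ∑ a : ZMod N, ZMod.stdAddChar (a * b) *
        (2 * π * Complex.I * ∑ d ∈ n.divisors,
          (ZMod.stdAddChar (-(a * (d : ZMod N))) - ZMod.stdAddChar (a * (d : ZMod N))))
      = (N : ℂ)⁻¹ * ∑ d ∈ n.divisors, ∑ a : ZMod N, ZMod.stdAddChar (a * b) *
          (ZMod.stdAddChar (-(a * (d : ZMod N))) - ZMod.stdAddChar (a * (d : ZMod N))) := by
        simp_rw [Finset.mul_sum]
        rw [Finset.sum_comm]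
        refine Finset.sum_congr rfl fun d _ => Finset.sum_congr rfl fun a _ => ?_
        field_simp
    _ = _ := by
        simp_rw [key]
        rw [← Finset.mul_sum, ← mul_assoc, inv_mul_cancel₀ hN, one_mul]

theorem dsre_pcot_zero : dsw_pcot 0 = 0 := by
  unfold dsw_pcot
  simp [Complex.cot_eq_cos_div_sin]

theorem dsre_stdAddChar_ne_one (N : ℕ) [NeZero N] {a : ZMod N} (ha : a ≠ 0) :
    ZMod.stdAddChar a ≠ 1 := by
  intro h
  rw [← (ZMod.stdAddChar (N := N)).map_zero_eq_one] at h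
  exact ha (ZMod.injective_stdAddChar h)

/-- the constant term of `E_a`, `a : ZMod N`. -/
theorem dsrE_qCoeff_zero (N : ℕ) [NeZero N] (a : ZMod N) :
    qCoeff (dsrE N a) 0 = if a = 0 then 0 else
      π * Complex.I * (ZMod.stdAddChar a + 1) / (ZMod.stdAddChar a - 1) := by
  unfold dsrE
  rw [dsw_E_qCoeff_zero]
  split_ifs with h
  · subst h
    simp [dsre_pcot_zero]
  · have hdvd : ¬ (N : ℤ) ∣ ((a.val : ℕ) : ℤ) := by
      intro hd
      apply h
      have := (ZMod.intCast_zmod_eq_zero_iff_dvd ((a.val : ℕ) : ℤ) N).mpr hd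
      simpa using this
    rw [dsw_pcot_torsion N _ hdvd, dsre_zeta_zpow]

/-- `∑_{a ≠ 0} 1/(ψ(a) - 1) = -(N-1)/2`. -/
theorem dsre_sum_inv (N : ℕ) [NeZero N] :
    ∑ a ∈ (Finset.univ : Finset (ZMod N)).erase 0, (ZMod.stdAddChar a - 1)⁻¹ =
      -((N : ℂ) - 1) / 2 := by
  set S := (Finset.univ : Finset (ZMod N)).erase 0 with hS
  have hneg : ∑ a ∈ S, (ZMod.stdAddChar a - 1)⁻¹ = ∑ a ∈ S, (ZMod.stdAddChar (-a) - 1)⁻¹ := by
    refine Finset.sum_nbij' (fun a => -a) (fun a => -a) ?_ ?_ ?_ ?_ ?_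
    · intro a ha
      simp only [hS, Finset.mem_erase, Finset.mem_univ, and_true] at ha ⊢
      simpa using ha
    · intro a ha
      simp only [hS, Finset.mem_erase, Finset.mem_univ, and_true] at ha ⊢
      simpa using ha
    · intro a _; simp
    · intro a _; simp
    · intro a _; simp
  have hpair : ∀ a ∈ S, (ZMod.stdAddChar a - 1)⁻¹ + (ZMod.stdAddChar (-a) - 1)⁻¹ = -1 := by
    intro a ha
    have ha0 : a ≠ 0 := by
      simp only [hS, Finset.mem_erase, Finset.mem_univ, and_true] at ha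
      exact ha
    have hu1 : ZMod.stdAddChar a ≠ 1 := dsre_stdAddChar_ne_one N ha0
    have hu0 : ZMod.stdAddChar a ≠ 0 := by
      intro h0
      have := (ZMod.stdAddChar (N := N)).map_add_eq_mul a (-a)
      rw [add_neg_cancel, AddChar.map_zero_eq_one, h0, zero_mul] at this
      exact one_ne_zero this
    rw [AddChar.map_neg_eq_inv]
    have h1 : ZMod.stdAddChar a - 1 ≠ 0 := sub_ne_zero.mpr hu1
    have h2 : (ZMod.stdAddChar a)⁻¹ - 1 ≠ 0 := by
      intro h
      apply hu1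
      have := sub_eq_zero.mp h
      rw [inv_eq_one] at this
      exact this
    field_simp
    ring
  have h2 : 2 * ∑ a ∈ S, (ZMod.stdAddChar a - 1)⁻¹ = -((N : ℂ) - 1) := by
    rw [two_mul]
    nth_rw 2 [hneg]
    rw [← Finset.sum_add_distrib, Finset.sum_congr rfl hpair, Finset.sum_const, hS,
      Finset.card_erase_of_mem (Finset.mem_univ _), Finset.card_univ, ZMod.card]
    have hN1 : 1 ≤ N := Nat.one_le_iff_ne_zero.mpr (NeZero.ne N)
    rw [nsmul_eq_mul, Nat.cast_sub hN1]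
    push_cast
    ring
  linear_combination (1 / 2 : ℂ) * h2

/-- **R-1c**.  The constant term of `R_1`. -/
theorem dsrR_qCoeff_zero (N : ℕ) [NeZero N] (hN : 2 ≤ N) :
    qCoeff (dsrR N 1) 0 = ((N : ℂ) - 2) / (2 * N) := by
  classical
  have hN0 : (N : ℂ) ≠ 0 := by exact_mod_cast NeZero.ne N
  have hpi : (π : ℂ) ≠ 0 := by exact_mod_cast Real.pi_ne_zero
  have : Fact (1 < N) := ⟨hN⟩
  rw [dsrR_qCoeff_eq]
  simp_rw [dsrE_qCoeff_zero, mul_one]
  set S := (Finset.univ : Finset (ZMod N)).erase 0 with hS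
  have hsplit : ∑ a : ZMod N, ZMod.stdAddChar a * (if a = 0 then 0 else
      π * Complex.I * (ZMod.stdAddChar a + 1) / (ZMod.stdAddChar a - 1)) =
      ∑ a ∈ S, (π * Complex.I) * (ZMod.stdAddChar a + 2 + 2 * (ZMod.stdAddChar a - 1)⁻¹) := by
    rw [← Finset.add_sum_erase _ _ (Finset.mem_univ (0 : ZMod N))]
    simp only [if_true, mul_zero, zero_add]
    refine Finset.sum_congr rfl fun a ha => ?_
    have ha0 : a ≠ 0 := by
      simp only [hS, Finset.mem_erase, Finset.mem_univ, and_true] at ha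
      exact ha
    rw [if_neg ha0]
    have h1 : ZMod.stdAddChar a - 1 ≠ 0 := sub_ne_zero.mpr (dsre_stdAddChar_ne_one N ha0)
    field_simp
    ring
  rw [hsplit, ← Finset.mul_sum, Finset.sum_add_distrib, Finset.sum_add_distrib, ← Finset.mul_sum,
    dsre_sum_inv]
  have hsum1 : ∑ a ∈ S, ZMod.stdAddChar a = -1 := by
    have hall : ∑ a : ZMod N, ZMod.stdAddChar a = 0 := by
      have := AddChar.sum_mulShift (1 : ZMod N) (ZMod.isPrimitive_stdAddChar N)
      simp only [mul_one] at this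
      rw [this, if_neg one_ne_zero]
      simp
    rw [← Finset.add_sum_erase _ _ (Finset.mem_univ (0 : ZMod N)), AddChar.map_zero_eq_one] at hall
    linear_combination hall
  have hsum2 : ∑ _a ∈ S, (2 : ℂ) = 2 * ((N : ℂ) - 1) := by
    rw [Finset.sum_const, hS, Finset.card_erase_of_mem (Finset.mem_univ _), Finset.card_univ,
      ZMod.card]
    have hN1 : 1 ≤ N := le_trans (by norm_num) hN
    rw [nsmul_eq_mul, Nat.cast_sub hN1]
    push_cast
    ring
  rw [hsum1, hsum2]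
  field_simp
  ring

end Fermat.Agent.DS
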