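import Mathlib
import Fermat.Prelude.Def_FLTPrelim_Modularity
import Fermat.Agent.S23.Main
import Fermat.Agent.DS.R.Eis

/-!
# Program DS, package (R), row R-2: the primitive element of `Γ₁(N)`

`U_t = R₁ · (u_N + t Δ)`, weight `13`, has exact stabiliser `Γ₁(N)` in `SL(2, ℤ)` for all but
finitely many integers `t`, and a bounded rational `q`-expansion.
-/

set_option autoImplicit false

noncomputable section

namespace Fermat.Agent.DS

open CongruenceSubgroup UpperHalfPlane ModularFormClass Fermat.Agent.S23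
open scoped MatrixGroups ModularForm Real Manifold

local notation "Δ" => ModularForm.discriminant

section fn

variable (N : ℕ) [NeZero N]

/-- the pair `(R₁ ∣ γ, u_N ∣ γ)` on which everything depends. -/
def dsrpPair (γ : SL(2, ℤ)) : (ℍ → ℂ) × (ℍ → ℂ) :=
  ((dsrR N 1 : ℍ → ℂ) ∣[(1 : ℤ)] γ, uN N ∣[(12 : ℤ)] γ)

/-- the stabiliser equation for `U_t`, written on the pair. -/
def dsrpEq (t : ℤ) (P : (ℍ → ℂ) × (ℍ → ℂ)) : Prop :=
  P.1 * (P.2 + (t : ℂ) • Δ) = (dsrR N 1 : ℍ → ℂ) * (uN N + (t : ℂ) • Δ)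

theorem dsrp_disc_slash (γ : SL(2, ℤ)) : (Δ : ℍ → ℂ) ∣[(12 : ℤ)] γ = Δ := by
  have h := SlashInvariantForm.slash_action_eqn CuspForm.discriminant
    (Matrix.SpecialLinearGroup.mapGL ℝ γ) ⟨γ, rfl⟩
  exact h

theorem dsrp_uN_slash (γ : SL(2, ℤ)) (hγ : γ ∈ Gamma0 N) : uN N ∣[(12 : ℤ)] γ = uN N := by
  rw [← coe_uN0_eq_uN]
  exact SlashInvariantForm.slash_action_eqn (uN0 N) _ (Subgroup.mem_map_of_mem _ hγ)

theorem dsrp_R_slash (b : ZMod N) (γ : SL(2, ℤ)) (hγ : γ ∈ Gamma1 N) :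
    (dsrR N b : ℍ → ℂ) ∣[(1 : ℤ)] γ = dsrR N b :=
  SlashInvariantForm.slash_action_eqn (dsrR N b) _ (Subgroup.mem_map_of_mem _ hγ)

/-- the pair depends only on the right coset `Γ₁(N) γ`. -/
theorem dsrpPair_mul (δ γ : SL(2, ℤ)) (hδ : δ ∈ Gamma1 N) :
    dsrpPair N (δ * γ) = dsrpPair N γ := by
  unfold dsrpPair
  rw [SlashAction.slash_mul, SlashAction.slash_mul, dsrp_R_slash N 1 δ hδ,
    dsrp_uN_slash N δ (Gamma1_in_Gamma0 N hδ)]

theorem dsrp_slash_eq (t : ℤ) (γ : SL(2, ℤ)) :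
    ((dsrR N 1 : ℍ → ℂ) * (uN N + (t : ℂ) • Δ)) ∣[(13 : ℤ)] γ =
      (dsrpPair N γ).1 * ((dsrpPair N γ).2 + (t : ℂ) • Δ) := by
  have h13 : (13 : ℤ) = 1 + 12 := by norm_num
  rw [h13, ModularForm.mul_slash_SL2, SlashAction.add_slash, ModularForm.SL_smul_slash,
    dsrp_disc_slash]
  rfl

theorem dsrp_R_ne_zero (hN : 3 ≤ N) : (dsrR N 1 : ℍ → ℂ) ≠ 0 := by
  intro h0
  have h1 := dsrR_qCoeff N 1 1 one_ne_zero
  rw [h0] at h1
  have hz : qCoeff (0 : ℍ → ℂ) 1 = 0 := by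
    unfold qCoeff
    rw [UpperHalfPlane.qExpansion_zero]
    simp
  rw [hz] at h1
  have : Fact (2 < N) := ⟨hN⟩
  have hne : (1 : ZMod N) ≠ -1 := ZMod.neg_one_ne_one.symm
  rw [Nat.divisors_one, Finset.sum_singleton, Nat.cast_one, if_pos rfl, if_neg hne] at h1
  norm_num at h1

/-- two different parameters with the same stabilising `γ` force `γ ∈ Γ₁(N)`. -/
theorem dsrp_mem_of_two (hN : 3 ≤ N) (γ : SL(2, ℤ)) (t₁ t₂ : ℤ) (ht : t₁ ≠ t₂)
    (h₁ : dsrpEq N t₁ (dsrpPair N γ)) (h₂ : dsrpEq N t₂ (dsrpPair N γ)) : γ ∈ Gamma1 N := by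
  set F := (dsrpPair N γ).1 with hF
  set U := (dsrpPair N γ).2 with hU
  set R : ℍ → ℂ := (dsrR N 1 : ℍ → ℂ) with hR
  unfold dsrpEq at h₁ h₂
  rw [← hF, ← hU, ← hR] at h₁ h₂
  have hRmd : MDiff R := ModularFormClass.holo (dsrR N 1)
  have hFmd : MDiff F := by
    rw [hF]
    show MDiff ((dsrR N 1 : ℍ → ℂ) ∣[(1 : ℤ)] γ)
    rw [ModularForm.SL_slash]
    exact hRmd.slash 1 _
  have hUmd : MDiff U := by
    rw [hU]
    show MDiff (uN N ∣[(12 : ℤ)] γ)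
    rw [ModularForm.SL_slash, ← coe_uN0_eq_uN]
    exact (ModularFormClass.holo (uN0 N)).slash 12 _
  have huNmd : MDiff (uN N) := by
    rw [← coe_uN0_eq_uN]
    exact ModularFormClass.holo (uN0 N)
  -- subtract
  have hsub : ((t₁ : ℂ) - t₂) • ((F - R) * Δ) = 0 := by
    have := congrArg₂ (· - ·) h₁ h₂
    have e : F * (U + (t₁ : ℂ) • Δ) - F * (U + (t₂ : ℂ) • Δ) -
        (R * (uN N + (t₁ : ℂ) • Δ) - R * (uN N + (t₂ : ℂ) • Δ)) =
        ((t₁ : ℂ) - t₂) • ((F - R) * Δ) := by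
      ext z
      simp only [Pi.sub_apply, Pi.mul_apply, Pi.add_apply, Pi.smul_apply, smul_eq_mul]
      ring
    rw [← e, this, sub_self]
  have ht' : ((t₁ : ℂ) - t₂) ≠ 0 := by
    rw [sub_ne_zero]
    exact_mod_cast ht
  have hFR : F = R := by
    have h0 : (F - R) * Δ = 0 := (smul_eq_zero.mp hsub).resolve_left ht'
    ext z
    have := congrFun h0 z
    simp only [Pi.mul_apply, Pi.sub_apply, Pi.zero_apply, mul_eq_zero] at this
    rcases this with h | h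
    · exact sub_eq_zero.mp h
    · exact absurd h (ModularForm.discriminant_ne_zero z)
  have hUU : U = uN N := by
    rw [hFR] at h₁
    have h0 : R * (U - uN N) = 0 := by
      have e : R * (U - uN N) = R * (U + (t₁ : ℂ) • Δ) - R * (uN N + (t₁ : ℂ) • Δ) := by
        ext z
        simp only [Pi.sub_apply, Pi.mul_apply, Pi.add_apply, Pi.smul_apply, smul_eq_mul]
        ring
      rw [e, h₁, sub_self]
    rcases (UpperHalfPlane.mul_eq_zero_iff hRmd (hUmd.sub huNmd)).mp h0 with h | h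
    · exact absurd h (dsrp_R_ne_zero N hN)
    · exact sub_eq_zero.mp h
  have hγ0 : γ ∈ Gamma0 N := mem_Gamma0_of_slash_uN_eq N γ hUU
  have hRb : (dsrR N (1 * ((γ 0 0 : ℤ) : ZMod N)) : ℍ → ℂ) = dsrR N 1 := by
    rw [← dsrR_slash N 1 γ hγ0]
    exact hFR
  have hq : qCoeff (dsrR N (1 * ((γ 0 0 : ℤ) : ZMod N)) : ℍ → ℂ) 1 = qCoeff (dsrR N 1 : ℍ → ℂ) 1 :=
    congrArg (fun g : ℍ → ℂ => qCoeff g 1) hRb
  rw [dsrR_qCoeff N _ 1 one_ne_zero, dsrR_qCoeff N _ 1 one_ne_zero, one_mul] at hq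
  have : Fact (2 < N) := ⟨hN⟩
  have hne : (1 : ZMod N) ≠ -1 := ZMod.neg_one_ne_one.symm
  have ha : ((γ 0 0 : ℤ) : ZMod N) = 1 := by
    by_contra hne1
    have hne1' : ¬ (1 : ZMod N) = ((γ 0 0 : ℤ) : ZMod N) := fun h => hne1 h.symm
    rw [Nat.divisors_one, Finset.sum_singleton, Finset.sum_singleton, Nat.cast_one, if_neg hne1',
      if_pos rfl, if_neg hne] at hq
    split_ifs at hq <;> norm_num at hq
  have hinv := dsre_diag_mul N γ hγ0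
  rw [ha, one_mul] at hinv
  rw [Gamma1_mem]
  exact ⟨ha, hinv, Gamma0_mem.mp hγ0⟩

/-- the set of bad parameters is finite. -/
theorem dsrp_bad_finite (hN : 3 ≤ N) :
    {t : ℤ | ∃ γ : SL(2, ℤ), γ ∉ Gamma1 N ∧ dsrpEq N t (dsrpPair N γ)}.Finite := by
  classical
  have hfin : Finite (Quotient (QuotientGroup.rightRel (Gamma1 N))) :=
    Finite.of_equiv _ (QuotientGroup.quotientRightRelEquivQuotientLeftRel (Gamma1 N)).symm
  have hsub : {t : ℤ | ∃ γ : SL(2, ℤ), γ ∉ Gamma1 N ∧ dsrpEq N t (dsrpPair N γ)} ⊆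
      ⋃ q : Quotient (QuotientGroup.rightRel (Gamma1 N)),
        {t : ℤ | ∃ γ : SL(2, ℤ), Quotient.mk (QuotientGroup.rightRel (Gamma1 N)) γ = q ∧
          γ ∉ Gamma1 N ∧ dsrpEq N t (dsrpPair N γ)} := by
    rintro t ⟨γ, hγ, hE⟩
    exact Set.mem_iUnion.mpr ⟨Quotient.mk _ γ, γ, rfl, hγ, hE⟩
  refine (Set.finite_iUnion fun q => Set.Subsingleton.finite ?_).subset hsub
  rintro t₁ ⟨γ₁, hq₁, hγ₁, hE₁⟩ t₂ ⟨γ₂, hq₂, hγ₂, hE₂⟩
  by_contra hne
  have hrel : (QuotientGroup.rightRel (Gamma1 N)) γ₁ γ₂ := Quotient.exact (hq₁.trans hq₂.symm)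
  rw [QuotientGroup.rightRel_apply] at hrel
  have hpair : dsrpPair N γ₂ = dsrpPair N γ₁ := by
    have := dsrpPair_mul N (γ₂ * γ₁⁻¹) γ₁ hrel
    rwa [inv_mul_cancel_right] at this
  rw [hpair] at hE₂
  exact hγ₁ (dsrp_mem_of_two N hN γ₁ t₁ t₂ hne hE₁ hE₂)

/-- `Γ₁(N) ≤ Γ₀(N)` inside `GL₂(ℝ)`. -/
theorem dsrp_gamma1_le_gamma0 :
    ((Gamma1 N : Subgroup SL(2, ℤ)) : Subgroup (GL (Fin 2) ℝ)) ≤
      ((Gamma0 N : Subgroup SL(2, ℤ)) : Subgroup (GL (Fin 2) ℝ)) :=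
  Subgroup.map_mono (Gamma1_in_Gamma0 N)

/-- `u_N + t Δ` as a modular form on `Γ₁(N)`. -/
def dsrpV (t : ℤ) : ModularForm (Gamma1 N) 12 :=
  unstab_mfRestrict (dsrp_gamma1_le_gamma0 N) (uN0 N) +
    (t : ℂ) • unstab_mfRestrict (dsr_gamma1_le_SL N)
      (ModularFormClass.modularForm CuspForm.discriminant)

theorem dsrpV_coe (t : ℤ) : (dsrpV N t : ℍ → ℂ) = uN N + (t : ℂ) • Δ := by
  unfold dsrpV
  rw [FunLike.coe_add, FunLike.coe_smul, unstab_coe_mfRestrict, unstab_coe_mfRestrict,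
    coe_uN0_eq_uN]
  rfl

/-- the primitive element. -/
def dsrPrim (t : ℤ) : ModularForm (Gamma1 N) 13 :=
  ModularForm.mcast (by norm_num) ((dsrR N 1).mul (dsrpV N t))

theorem dsrPrim_coe (t : ℤ) :
    (dsrPrim N t : ℍ → ℂ) = (dsrR N 1 : ℍ → ℂ) * (uN N + (t : ℂ) • Δ) := by
  unfold dsrPrim
  rw [← dsrpV_coe, ← ModularForm.coe_mul]
  rfl

theorem dsrR_isBddRat (hN : 3 ≤ N) : IsBddRat (qExpansion 1 (dsrR N 1 : ℍ → ℂ)) := by
  classical
  refine ⟨2 * N, by have := NeZero.ne N; omega, fun n => ?_⟩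
  have hN0 : (N : ℂ) ≠ 0 := by exact_mod_cast NeZero.ne N
  rcases Nat.eq_zero_or_pos n with rfl | hn
  · have h0 := dsrR_qCoeff_zero N (by omega : 2 ≤ N)
    unfold qCoeff at h0
    refine ⟨(N : ℤ) - 2, ?_⟩
    rw [h0]
    push_cast
    field_simp
  · have h1 := dsrR_qCoeff N 1 n hn.ne'
    unfold qCoeff at h1
    refine ⟨2 * N * ∑ d ∈ n.divisors, ((if (d : ZMod N) = 1 then 1 else 0) -
        (if (d : ZMod N) = -1 then 1 else 0) : ℤ), ?_⟩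
    rw [h1]
    push_cast
    rfl

theorem dsrPrim_isBddRat (hN : 3 ≤ N) (t : ℤ) :
    IsBddRat (qExpansion 1 (dsrPrim N t : ℍ → ℂ)) := by
  have nR : IsNice (dsrR N 1 : ℍ → ℂ) :=
    isNice_of_modularForm (dsr_one_mem_strictPeriods N) (dsrR N 1)
  have nU : IsNice (uN N) := by
    rw [← coe_uN0_eq_uN]
    exact isNice_of_modularForm (CongruenceSubgroup.one_mem_strictPeriods_Gamma0 N) (uN0 N)
  have nD : IsNice (Δ : ℍ → ℂ) := discriminant_isNice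
  rw [dsrPrim_coe, nR.qExpansion_mul (nU.add (nD.smul _)), nU.qExpansion_add (nD.smul _),
    nD.qExpansion_smul]
  refine (dsrR_isBddRat N hN).mul ((isBddRat_qExpansion_uN N).add ?_)
  have := isBddRat_qExpansion_discriminant.smul_rat (t : ℚ)
  simpa using this

/-- **R-2**.  A primitive element for `Γ₁(N)`, `N ≥ 3`. -/
theorem dsr_exists_prim (hN : 3 ≤ N) :
    ∃ u : ModularForm (Gamma1 N) 13,
      (∀ γ : SL(2, ℤ), (u : ℍ → ℂ) ∣[(13 : ℤ)] γ = u → γ ∈ Gamma1 N) ∧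
      IsBddRat (qExpansion 1 u) := by
  obtain ⟨t, ht⟩ := (dsrp_bad_finite N hN).exists_notMem
  refine ⟨dsrPrim N t, fun γ hγ => ?_, dsrPrim_isBddRat N hN t⟩
  by_contra hmem
  apply ht
  refine ⟨γ, hmem, ?_⟩
  unfold dsrpEq
  rw [← dsrp_slash_eq, ← dsrPrim_coe]
  exact hγ

end fn

end Fermat.Agent.DS
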