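import Mathlib
import Fermat.Prelude.Def_FLTPrelim_Modularity
import Fermat.Agent.S23.Main
import Fermat.Agent.DS.R.Sturm
import Fermat.Agent.DS.R.Prim

/-!
# Program DS, package (R): rational structure of `CuspForm (Gamma1 N) k` (rows R-3, R-5, R-6)

Copy of `S23/Main.lean` with `Γ₀(N), u_N` replaced by `Γ₁(N)` and the primitive element of R-2.
-/

set_option autoImplicit false

noncomputable section

namespace Fermat.Agent.DS

open CongruenceSubgroup UpperHalfPlane ModularFormClass Fermat.Agent.S23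
open scoped MatrixGroups ModularForm Manifold

theorem dsr_isNice {N : ℕ} [NeZero N] {k : ℤ} {F : Type*} [FunLike F ℍ ℂ]
    [ModularFormClass F (Gamma1 N : Subgroup (GL (Fin 2) ℝ)) k] (f : F) : IsNice (f : ℍ → ℂ) :=
  isNice_of_modularForm (dsr_one_mem_strictPeriods N) f

/-- **R-3**.  `Aut(ℂ)`-stability of `S_k(Γ₁(N))`. -/
theorem ds_exists_conj (N : ℕ) [NeZero N] (hN : 3 ≤ N) (k : ℤ) (f : CuspForm (Gamma1 N) k)
    (σ : ℂ →+* ℂ) : ∃ g : CuspForm (Gamma1 N) k, ∀ n, qCoeff g n = σ (qCoeff f n) := by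
  obtain ⟨u, hu, hbdd⟩ := dsr_exists_prim N hN
  obtain ⟨g, hg⟩ := exists_cuspForm_conj (dsr_gamma1_le_SL N) (dsr_one_mem_strictPeriods N) u
    (fun γ hγ => Subgroup.mem_map_of_mem _ (hu γ hγ)) σ (hbdd.map_eq σ) f
  refine ⟨g, fun n => ?_⟩
  unfold qCoeff
  rw [hg, PowerSeries.coeff_map]

/-- **R-5**.  A cusp form on `Γ₁(N)` with rational coefficients has bounded denominators. -/
theorem ds_isBddRat_of_rational (N : ℕ) [NeZero N] (hN : 3 ≤ N) (k : ℤ)
    (v : CuspForm (Gamma1 N) k) (hv : ∀ n, qCoeff v n ∈ Set.range (algebraMap ℚ ℂ)) :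
    IsBddRat (qExpansion 1 v) := by
  obtain ⟨u, hu', hubdd⟩ := dsr_exists_prim N hN
  have h1 := dsr_one_mem_strictPeriods N
  have hustab : ∀ γ : SL(2, ℤ), (u : ℍ → ℂ) ∣[(13 : ℤ)] γ = u →
      (γ : GL (Fin 2) ℝ) ∈ ((Gamma1 N : Subgroup SL(2, ℤ)) : Subgroup (GL (Fin 2) ℝ)) :=
    fun γ hγ => Subgroup.mem_map_of_mem _ (hu' γ hγ)
  obtain ⟨m, w₀, d, b, hd0, hlin⟩ :=
    exists_linear_relation (ModularFormClass.modularForm v) u hustab
  obtain ⟨m', c, hmonic⟩ := exists_monic_relation (ModularFormClass.modularForm v)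
  have nv : IsNice (v : ℍ → ℂ) := isNice_of_modularForm h1 v
  have nu : IsNice (u : ℍ → ℂ) := isNice_of_modularForm h1 u
  have nd : IsNice (d : ℍ → ℂ) := isNice_of_modularForm one_mem_strictPeriods_SL d
  have nb : ∀ l, IsNice (b l : ℍ → ℂ) := fun l =>
    isNice_of_modularForm one_mem_strictPeriods_SL (b l)
  have nc : ∀ i, IsNice (c i : ℍ → ℂ) := fun i =>
    isNice_of_modularForm one_mem_strictPeriods_SL (c i)
  set φ := qExpansion 1 (v : ℍ → ℂ) with hφ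
  have hlinF : (d : ℍ → ℂ) * (v : ℍ → ℂ) =
      ∑ l : Fin m, (b l : ℍ → ℂ) * (u : ℍ → ℂ) ^ (l : ℕ) := by
    ext τ
    simpa using hlin τ
  have hqlin : qExpansion 1 (d : ℍ → ℂ) * φ =
      ∑ l : Fin m, qExpansion 1 (b l : ℍ → ℂ) * qExpansion 1 (u : ℍ → ℂ) ^ (l : ℕ) := by
    rw [hφ, ← nd.qExpansion_mul nv, hlinF,
      IsNice.qExpansion_sum _ fun l _ => (nb l).mul (nu.pow _)]
    refine Finset.sum_congr rfl fun l _ => ?_
    rw [(nb l).qExpansion_mul (nu.pow _), nu.qExpansion_pow]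
  have hmonicF : (v : ℍ → ℂ) ^ m' +
      ∑ i : Fin m', (c i : ℍ → ℂ) * (v : ℍ → ℂ) ^ (m' - 1 - (i : ℕ)) = 0 := by
    ext τ
    simpa using hmonic τ
  have hqmonic : φ ^ m' +
      ∑ i : Fin m', qExpansion 1 (c i : ℍ → ℂ) * φ ^ (m' - 1 - (i : ℕ)) = 0 := by
    have := congrArg (qExpansion 1) hmonicF
    rw [(nv.pow _).qExpansion_add (IsNice.sum _ fun i _ => (nc i).mul (nv.pow _)),
      nv.qExpansion_pow, IsNice.qExpansion_sum _ fun i _ => (nc i).mul (nv.pow _),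
      UpperHalfPlane.qExpansion_zero] at this
    rw [← this]
    congr 1
    refine Finset.sum_congr rfl fun i _ => ?_
    rw [(nc i).qExpansion_mul (nv.pow _), nv.qExpansion_pow]
  have hqd0 : qExpansion 1 (d : ℍ → ℂ) ≠ 0 := fun h =>
    hd0 ((ModularForm.qExpansion_eq_zero_iff one_pos one_mem_strictPeriods_SL d).mp h)
  refine isBddRat_of_relations_aux
    (fun φ D hD h => exists_int_of_almost_integral φ D hD h) φ hv
    (fun i => qExpansion 1 (c i : ℍ → ℂ)) (fun i => qExpansion_levelOne_mem_span (c i)) hqmonic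
    (qExpansion 1 (d : ℍ → ℂ))
    (∑ l : Fin m, qExpansion 1 (b l : ℍ → ℂ) * qExpansion 1 (u : ℍ → ℂ) ^ (l : ℕ)) hqd0
    (qExpansion_levelOne_mem_span d) ?_ hqlin
  exact Submodule.sum_mem _ fun l _ =>
    span_mul_isBddRat (qExpansion_levelOne_mem_span (b l)) (hubdd.pow _)

/-- the forms with rational coefficients span. -/
theorem dsr_span_rational (N : ℕ) [NeZero N] (hN : 3 ≤ N) (k : ℤ) :
    Submodule.span ℂ {f : CuspForm (Gamma1 N) k | ∀ n, qCoeff f n ∈ Set.range (algebraMap ℚ ℂ)}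
      = ⊤ := by
  have := ds_finiteDimensional N k
  exact span_rational_of_stable (dsrCoeffLin N k) (dsrCoeffLin_injective N k)
    (fun x hx => by
      by_contra hx'
      obtain ⟨σ, hσ⟩ := exists_ringHom_ne hx'
      exact hσ (hx σ))
    (fun σ v => by
      obtain ⟨g, hg⟩ := ds_exists_conj N hN k v σ
      exact ⟨g, fun n => by rw [dsrCoeffLin_apply, dsrCoeffLin_apply, hg]⟩)

/-- **R-6**.  Integral structure of `S_k(Γ₁(N))`. -/
theorem ds_span_integral (N : ℕ) [NeZero N] (hN : 3 ≤ N) (k : ℤ) :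
    Submodule.span ℂ {f : CuspForm (Gamma1 N) k | ∀ n, ∃ z : ℤ, qCoeff f n = z} = ⊤ := by
  rw [eq_top_iff, ← dsr_span_rational N hN k]
  apply Submodule.span_le.mpr
  intro v hv
  obtain ⟨M, hM, hz⟩ := ds_isBddRat_of_rational N hN k v hv
  have hMv : (M : ℂ) • v ∈ {f : CuspForm (Gamma1 N) k | ∀ n, ∃ z : ℤ, qCoeff f n = z} := by
    intro n
    obtain ⟨z, hz⟩ := hz n
    refine ⟨z, ?_⟩
    rw [dsr_qCoeff_smul]
    exact hz
  have hMC : (M : ℂ) ≠ 0 := by exact_mod_cast hM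
  have hveq : v = ((M : ℂ)⁻¹) • ((M : ℂ) • v) := by
    rw [smul_smul]
    simp [hMC]
  rw [hveq]
  exact Submodule.smul_mem _ _ (Submodule.subset_span hMv)

end Fermat.Agent.DS
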